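import Fermat.Agent.S36.AuxL.Defs
import Fermat.Agent.GES.Preserve

set_option autoImplicit false

/-!
# S36 AUX task AX-Incl : the inclusions `inclF h : F_N → F_{N'}`, `N ∣ N'`

Same proofs as `Fermat/Agent/S34/Level.lean` and `Fermat/Agent/GES/Fin.lean` (there for `N' = N * r`), with
`heckeAlphaBar` replaced by `inclF h`.

SKETCHES.
* `inclF_jF`: `Subtype.ext`, `coe_inclF` (do NOT use `rfl` between different levels: kernel timeouts; both sides have
  underlying series `Jser 1`; prove `((S24.jF N : FN N) : LaurentSeries Kb) = S24.Jser 1 := rfl` as a separate lemma for a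
  variable `N` and rewrite).
* `finite_inclF`: `GES.finite_along_of_adjoin (inclF h) (S24.jF N)` + `S24.finiteDimensional_jF N'`.
* `isIntegral_inclF`: as `GES.isIntegral_alpha`.
* `inclU_mem`: `Place.ord_restrictAlong (inclF h) (isIntegral_inclF h) w f`, as `S34.upU_mem`.
* `inclF_galF`: `Subtype.ext`, `coe_inclF`, `coe_galF`.
* `normI_inclF`: `Algebra.norm_algebraMap`.
* `inclF_comp`: `Subtype.ext`, `coe_inclF`.
-/

noncomputable section

namespace Fermat.Agent.S36.AuxL

open AlgebraicCurve ModularCurve
open Fermat.Agent.S24 (Kb FN iotaK)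
open Fermat.Agent.GES

variable {N N' : ℕ} [NeZero N] [NeZero N'] (h : N ∣ N')

theorem coe_jF (M : ℕ) [NeZero M] : ((S24.jF M : FN M) : LaurentSeries Kb) = S24.Jser 1 := rfl

theorem inclF_jF : inclF h (S24.jF N) = S24.jF N' := by
  apply Subtype.ext
  rw [coe_inclF, coe_jF, coe_jF]

theorem inclF_injective : Function.Injective (inclF h) := (inclF h).injective

theorem inclF_comp {N'' : ℕ} [NeZero N''] (h' : N' ∣ N'') (x : FN N) :
    inclF h' (inclF h x) = inclF (h.trans h') x := by
  apply Subtype.ext
  rw [coe_inclF, coe_inclF, coe_inclF]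

theorem finite_inclF : FiniteAlong Kb (inclF h) := by
  have : FiniteDimensional (IntermediateField.adjoin Kb {inclF h (S24.jF N)}) (FN N') := by
    rw [inclF_jF]
    exact S24.finiteDimensional_jF N'
  exact finite_along_of_adjoin (inclF h) (S24.jF N)

theorem isIntegral_inclF : (inclF h).toRingHom.IsIntegral := by
  let _ := algebraAlong (inclF h)
  have h1 : Module.Finite (FN N) (FN N') := finite_inclF h
  have h2 : Algebra.IsIntegral (FN N) (FN N') := Algebra.IsIntegral.of_finite _ _
  exact algebraMap_isIntegral_iff.mpr h2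

/-- the inclusion on units. -/
def inclU : (FN N)ˣ →* (FN N')ˣ := Units.map ((inclF h : FN N →+* FN N') : FN N →* FN N')

@[simp] theorem coe_inclU (f : (FN N)ˣ) : ((inclU h f : (FN N')ˣ) : FN N') = inclF h f := rfl

theorem inclU_mem (m : ℕ) : ∀ f ∈ DN N m, inclU h f ∈ DN N' m := by
  intro f hf w
  rw [coe_inclU, Place.ord_restrictAlong (inclF h) (isIntegral_inclF h) w (f : FN N)]
  exact Dvd.dvd.mul_left (hf _) _

theorem inclF_galF (σ : GQ) (f : FN N) : inclF h (galF N σ f) = galF N' σ (inclF h f) := by
  apply Subtype.ext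
  rw [coe_inclF, coe_galF, coe_galF, coe_inclF]

/-- the norm `F_{N'} → F_N`. -/
def normI : FN N' →* FN N :=
  letI := algebraAlong (inclF h)
  Algebra.norm (FN N)

/-- the degree `[F_{N'} : F_N]`. -/
def degI : ℕ := letI := algebraAlong (inclF h); Module.finrank (FN N) (FN N')

theorem degI_pos : 0 < degI h := by
  let _ := algebraAlong (inclF h)
  have : Module.Finite (FN N) (FN N') := finite_inclF h
  exact Module.finrank_pos

theorem normI_inclF (x : FN N) : normI h (inclF h x) = x ^ degI h := by
  let _ := algebraAlong (inclF h)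
  exact Algebra.norm_algebraMap x

/-- tower law with `ℚ̄(j)` at the bottom. -/
theorem degI_mul : dedekindPsi N * degI h = dedekindPsi N' := by
  have h1 := finrank_along_of_adjoin (inclF h) (S24.jF N)
  rw [inclF_jF, S24.finrank_jF, S24.finrank_jF] at h1
  exact h1

end Fermat.Agent.S36.AuxL
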