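import Fermat.Agent.S36.AuxL.Main
import Fermat.Agent.NEW.Defs

set_option autoImplicit false

/-!
# S36 AUX: the core theorem in the Kummer class form (`NEW.alphaV`, `NEW.betaV`) and its change of level

`CoreV P q c` is the statement (CORE) consumed by the wiring of S36: a class of `V_m(P q)` fixed by
the inertia group at `q` and killed by `α_*`, `β_*` is killed by `c`.
`coreV_of_dvd`: it is enough to prove it after enlarging the prime-to-`q` part of the level.
-/

noncomputable section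

namespace Fermat.Agent.S36.AuxL

open AlgebraicCurve ModularCurve IntermediateField
open Fermat.Agent.S24 (Kb FN iotaK)
open Fermat.Agent.GES

variable (P q : ℕ) [NeZero P] [NeZero q]

theorem normB_eq_new : normB P q = NEW.normB P q := rfl

/-- the core theorem of S36 at level `P * q`, on Kummer classes. -/
def CoreV (c : ℕ) : Prop :=
  ∀ A : ValuationSubring Kb, A.LiesOverPrime q → ∀ (m : ℕ) [NeZero m], ¬ q ∣ m →
    ∀ x : VN (P * q) m,
      (∀ τ ∈ A.inertiaSubgroupIn ℚ, rhoV (P * q) m τ x = x) →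
      NEW.alphaV P q m x = 0 → NEW.betaV P q m x = 0 → c • x = 0

theorem coreV_iff_coreAt (c : ℕ) : CoreV P q c ↔ CoreAt P q c := by
  constructor
  · intro H A hA m _ hm f hf ha hb
    have h1 := H A hA m hm (Vm.mk f) hf ((NEW.alphaV_mk_eq_zero_iff P q m f).mpr ha)
      ((NEW.betaV_mk_eq_zero_iff P q m f).mpr hb)
    rw [← Vm.mk_pow, Vm.mk_eq_zero_iff] at h1
    obtain ⟨w, hw⟩ := h1
    exact ⟨w, by simpa using congrArg Units.val hw⟩
  · intro H A hA m _ hm x hx ha hb
    obtain ⟨f, rfl⟩ := Vm.mk_surjective x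
    obtain ⟨w, hw⟩ := H A hA m hm f hx ((NEW.alphaV_mk_eq_zero_iff P q m f).mp ha)
      ((NEW.betaV_mk_eq_zero_iff P q m f).mp hb)
    rw [← Vm.mk_pow, Vm.mk_eq_zero_iff]
    have hw0 : w ≠ 0 := by
      rintro rfl
      rw [zero_pow (NeZero.ne m)] at hw
      exact (pow_ne_zero c (f : (FN (P * q))ˣ).ne_zero) hw.symm
    exact ⟨Units.mk0 w hw0, Units.ext (by simpa using hw)⟩

/-- change of the auxiliary level for the core theorem. -/
theorem coreV_of_dvd (q : ℕ) [NeZero q] {P₁ P₂ : ℕ} [NeZero P₁] [NeZero P₂] (h : P₁ ∣ P₂)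
    (hq : q.Prime) (hq1 : q ∣ P₁) (hcop : Nat.Coprime q (P₂ / P₁)) {c : ℕ}
    (H : CoreV P₂ q c) : CoreV P₁ q (c * degI (Nat.mul_dvd_mul_right h q)) :=
  (coreV_iff_coreAt P₁ q _).mpr (coreAt_of_dvd q h hq hq1 hcop ((coreV_iff_coreAt P₂ q c).mp H))

end Fermat.Agent.S36.AuxL
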