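import Fermat.Agent.GES.Ops
import Fermat.Agent.GES.Fin
import Fermat.Agent.GES.Emb
import Fermat.Agent.GES.TwistC
import Fermat.Agent.GES.NormProd

set_option autoImplicit false

/-!
# S36, chapter AUX (change of the auxiliary level): definitions

Levels are written `P * q` (upper level) and `P` (lower level), `q ∣ P`.

* `inclF h : F_N → F_{N'}` for `h : N ∣ N'` (inclusion inside `ℚ̄((q))`);
* `normA P q : F_{Pq} → F_P` is `GES.normA` (norm along the inclusion `α`);
* `normB P q : F_{Pq} → F_P` is the norm along `β : f(Q) ↦ f(Q^q)`;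
* `CoreAt q P c`: the core theorem of S36 at level `P * q` with constant `c`.
-/

noncomputable section

open UpperHalfPlane ModularForm CongruenceSubgroup
open scoped MatrixGroups

namespace Fermat.Agent.S36.AuxL

open AlgebraicCurve ModularCurve
open Fermat.Agent.S24 (Kb FN iotaK)
open Fermat.Agent.GES

theorem mff_le {N N' : ℕ} [NeZero N] [NeZero N'] (h : N ∣ N') :
    modularFunctionFieldBar N ≤ modularFunctionFieldBar N' := by
  obtain ⟨t, rfl⟩ := h
  have : NeZero t := ⟨fun h0 => NeZero.ne (N * t) (by rw [h0, mul_zero])⟩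
  intro x hx
  have h1 := (heckeAlphaBar Kb N t ⟨x, hx⟩).2
  rwa [coe_heckeAlphaBar] at h1

/-- the inclusion `F_N ⊆ F_{N'}` for `N ∣ N'`. -/
def inclF {N N' : ℕ} [NeZero N] [NeZero N'] (h : N ∣ N') : FN N →ₐ[Kb] FN N' :=
  IntermediateField.inclusion (mff_le h)

@[simp] theorem coe_inclF {N N' : ℕ} [NeZero N] [NeZero N'] (h : N ∣ N') (x : FN N) :
    (inclF h x : LaurentSeries Kb) = (x : LaurentSeries Kb) :=
  IntermediateField.coe_inclusion _ x

theorem heckeAlphaBar_eq_inclF (N ℓ : ℕ) [NeZero N] [NeZero ℓ] :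
    heckeAlphaBar Kb N ℓ = inclF (dvd_mul_right N ℓ) := rfl

variable (P q : ℕ) [NeZero P] [NeZero q]

/-- `F_{Pq}` as an algebra over `F_P` via `β : f(Q) ↦ f(Q^q)`. -/
@[reducible] def algB : Algebra (FN P) (FN (P * q)) := algebraAlong (heckeBetaBar Kb P q)

/-- the norm `F_{Pq} → F_P` along `β`. -/
def normB : FN (P * q) →* FN P :=
  letI := algB P q
  Algebra.norm (FN P)

/-- the matrix `[[1, 0], [P k, 1]]`. -/
def deltaK (k : ℤ) : SL(2, ℤ) := ⟨!![1, 0; (P : ℤ) * k, 1], by simp [Matrix.det_fin_two]⟩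

/-- the core theorem of S36 at level `P * q` (`q ∣ P`, `q² ∤ P`), with constant `c`:
an inertia invariant Kummer class killed by both degeneracy norms is killed by `c`. -/
def CoreAt (c : ℕ) : Prop :=
  ∀ A : ValuationSubring Kb, A.LiesOverPrime q → ∀ (m : ℕ) [NeZero m], ¬ q ∣ m →
    ∀ f : DN (P * q) m,
      (∀ τ ∈ A.inertiaSubgroupIn ℚ, rhoV (P * q) m τ (Vm.mk f) = Vm.mk f) →
      (∃ a : FN P, a ^ m = normA P q ((f : (FN (P * q))ˣ) : FN (P * q))) →
      (∃ b : FN P, b ^ m = normB P q ((f : (FN (P * q))ˣ) : FN (P * q))) →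
      ∃ w : FN (P * q), w ^ m = ((f : (FN (P * q))ˣ) : FN (P * q)) ^ c

end Fermat.Agent.S36.AuxL
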