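import Fermat.Agent.S36.AuxL.Defs

set_option autoImplicit false

/-!
# S36 AUX task AX-DegAlpha : `[F_{Pq} : F_P] = q` for `q ∣ P`

Copy of `GES.finrank_algA` (Fermat/Agent/GES/Fin.lean) with `ES.dedekindPsi_prime_mul_of_dvd`.
`deltaK_mem`: `Gamma0_mem`, the entry `(1,0)` of `deltaK P k` is `P * k`.
`deltaK_inv_mul`: `deltaK P k⁻¹ * deltaK P k' = deltaK P (k' - k)` (`Matrix.SpecialLinearGroup.ext`, `SL2_inv_expl`, or
prove `deltaK P (a + b) = deltaK P a * deltaK P b`, `deltaK P 0 = 1` first).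
-/

noncomputable section

open UpperHalfPlane ModularForm CongruenceSubgroup
open scoped MatrixGroups

namespace Fermat.Agent.S36.AuxL

open AlgebraicCurve ModularCurve
open Fermat.Agent.S24 (Kb FN iotaK)
open Fermat.Agent.GES

set_option linter.unusedSectionVars false

variable (P q : ℕ) [NeZero P] [NeZero q]

theorem finrank_algA_of_dvd (hq : q.Prime) (hqP : q ∣ P) :
    letI := algA P q; Module.finrank (FN P) (FN (P * q)) = q := by
  have h := finrank_along_of_adjoin (heckeAlphaBar Kb P q) (S24.jF P)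
  have h2 : dedekindPsi (P * q) = q * dedekindPsi P := by
    rw [mul_comm P q, Fermat.Agent.ES.dedekindPsi_prime_mul_of_dvd hq (NeZero.ne P) hqP]
  rw [alpha_jF, S24.finrank_jF, S24.finrank_jF, h2, mul_comm] at h
  have h3 : dedekindPsi P ≠ 0 := by
    rw [← S24.finrank_jF P]
    have := S24.finiteDimensional_jF P
    exact Module.finrank_pos.ne'
  exact Nat.eq_of_mul_eq_mul_right (Nat.pos_of_ne_zero h3) h

theorem deltaK_mem_iff (L : ℕ) (k : ℤ) : deltaK P k ∈ Gamma0 L ↔ (L : ℤ) ∣ (P : ℤ) * k := by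
  rw [Gamma0_mem, ZMod.intCast_zmod_eq_zero_iff_dvd]
  rfl

theorem deltaK_mem (k : ℤ) : deltaK P k ∈ Gamma0 P :=
  (deltaK_mem_iff P P k).mpr (dvd_mul_right _ _)

theorem deltaK_zero : deltaK P 0 = 1 := by
  ext i j
  fin_cases i <;> fin_cases j <;> simp [deltaK]

theorem deltaK_add (a b : ℤ) : deltaK P (a + b) = deltaK P a * deltaK P b := by
  apply Subtype.ext
  rw [Matrix.SpecialLinearGroup.coe_mul]
  show !![1, 0; (P : ℤ) * (a + b), 1] = !![1, 0; (P : ℤ) * a, 1] * !![1, 0; (P : ℤ) * b, 1]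
  rw [Matrix.mul_fin_two]
  congr 1
  simp only [mul_one, mul_zero, zero_mul, add_zero, one_mul, zero_add]
  rw [mul_add]

theorem deltaK_inv_mul (k k' : ℤ) : (deltaK P k)⁻¹ * deltaK P k' = deltaK P (k' - k) := by
  rw [inv_mul_eq_iff_eq_mul, ← deltaK_add]
  congr 1
  ring

end Fermat.Agent.S36.AuxL
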