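import Fermat.Agent.S36.AuxL.Gen
import Fermat.Agent.S36.AuxL.Incl

set_option autoImplicit false

/-!
# S36 AUX task AX-DegBeta : `[F_{Pq} : β F_P] = q` for `q ∣ P`

SKETCH.  `E = FN (P * q)`, `i = inclF (Dvd.intro_left P rfl : q ∣ P * q) : FN q → E`.
* `beta_jF`: `heckeBetaBar Kb P q (jF P) = i (jnF q)`: `Subtype.ext`, `coe_heckeBetaBar`, `coe_inclF`, `coe_jnF`;
  `qExpand Kb q (Jser 1) = Jser q` (`S24.phi_Jser_of_ne`, `jqNModC`, `S24.degree_Jser_one`; see the end of `GES/EmbG0.lean`).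
* upper bound: `GES.finrank_along_of_adjoin i (jnF q)`: `finrank Kb⟮jnF q⟯ (FN q) * degI = finrank Kb⟮i (jnF q)⟯ E`; `finrank_jnF_le`, `degI_mul` (`ψ(q) * degI = ψ(P q)`);
  `GES.finrank_along_of_adjoin (heckeBetaBar Kb P q) (jF P)`: `ψ(P) * finrank_β = finrank Kb⟮β j⟯ E ≤ ψ(P q) = q ψ(P)` (`ES.dedekindPsi_prime_mul_of_dvd`).
* lower bound: `S24.degree_le_finrank_aux` with `Q = Fin q`, `θ b = (S28.twist (ζ ^ b)).comp (subtype E → LaurentSeries Kb)`, `ζ` a primitive `q`-th root of unity in `Kb`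
  (`IsAlgClosed`/`HasEnoughRootsOfUnity`; or `S24`'s); agreement on `β F_P`: `coe_heckeBetaBar`, `GES.twist_qExpand_of_pow_eq_one`;
  injectivity: coefficient `-1` of `twist (ζ^b) (Jser 1)` is `ζ^(-b)` (`S28.twist_coeff`, `S24.degree_Jser_one`, `coeff_jqModC_neg_one`), `IsPrimitiveRoot.pow_inj`
  (see `GES.tauFam_injective` in `GES/StarFam.lean`).
* `finiteDimensional_algB`: as in `GES.isIntegral_beta`.
-/

noncomputable section

namespace Fermat.Agent.S36.AuxL

open AlgebraicCurve ModularCurve IntermediateField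
open Fermat.Agent.S24 (Kb FN iotaK)
open Fermat.Agent.GES

variable (P q : ℕ) [NeZero P] [NeZero q]

theorem finiteDimensional_algB : letI := algB P q; FiniteDimensional (FN P) (FN (P * q)) := by
  have htr : Transcendental Kb (heckeBetaBar Kb P q (S24.jF P)) :=
    fun h => S24.transcendental_jF P
      ((isAlgebraic_algHom_iff (heckeBetaBar Kb P q) (heckeBetaBar Kb P q).injective).mp h)
  have : FiniteDimensional Kb⟮heckeBetaBar Kb P q (S24.jF P)⟯ (FN (P * q)) :=
    (S24.isFF1_FN (P * q)).finiteDimensional htr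
  exact finite_along_of_adjoin (heckeBetaBar Kb P q) (S24.jF P)

theorem qExpand_Jser_one : qExpand Kb q (S24.Jser 1) = S24.Jser q := by
  rw [S24.degree_Jser_one, S24.phi_Jser_of_ne, jqNModC]

theorem beta_jF : heckeBetaBar Kb P q (S24.jF P) =
    inclF (Dvd.intro_left P rfl : q ∣ P * q) (jnF q) := by
  apply Subtype.ext
  rw [coe_heckeBetaBar, coe_inclF, coe_jnF, coe_jF, qExpand_Jser_one]

/-- the embeddings `y(Q) ↦ y(ζ^b Q)`. -/
def twistEmb (ζ : Kbˣ) (b : Fin q) : FN (P * q) →+* LaurentSeries Kb :=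
  (S28.twist (ζ ^ (b : ℕ))).comp (algebraMap (FN (P * q)) (LaurentSeries Kb))

theorem twistEmb_apply (ζ : Kbˣ) (b : Fin q) (y : FN (P * q)) :
    twistEmb P q ζ b y = S28.twist (ζ ^ (b : ℕ)) (y : LaurentSeries Kb) := rfl

theorem twistEmb_beta (ζ : Kbˣ) (hζ : ζ ^ q = 1) (b : Fin q) (r : FN P) :
    twistEmb P q ζ b (heckeBetaBar Kb P q r) = qExpand Kb q (r : LaurentSeries Kb) := by
  rw [twistEmb_apply, coe_heckeBetaBar]
  exact twist_qExpand_of_pow_eq_one _ q (by rw [← pow_mul, mul_comm, pow_mul, hζ, one_pow]) _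

theorem twistEmb_injective (ζ : Kbˣ) (hζ : IsPrimitiveRoot ζ q) :
    Function.Injective (twistEmb P q ζ) := by
  intro b b' hbb
  have h1 := congrArg (fun φ : FN (P * q) →+* LaurentSeries Kb =>
    (φ (S24.jF (P * q))).coeff (-1 : ℤ)) hbb
  simp only [twistEmb_apply, coe_jF, S28.twist_coeff, S24.degree_Jser_one,
    coeff_jqModC_neg_one, mul_one] at h1
  have h2 : (ζ ^ (b : ℕ)) ^ (-1 : ℤ) = (ζ ^ (b' : ℕ)) ^ (-1 : ℤ) := Units.ext h1
  rw [zpow_neg_one, zpow_neg_one, inv_inj] at h2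
  exact Fin.ext (hζ.pow_inj b.2 b'.2 h2)

theorem finrank_algB_le (hq : q.Prime) (hqP : q ∣ P) :
    letI := algB P q; Module.finrank (FN P) (FN (P * q)) ≤ q := by
  have hd : q ∣ P * q := Dvd.intro_left P rfl
  have h1 := finrank_along_of_adjoin (inclF hd) (jnF q)
  have h2 := finrank_along_of_adjoin (heckeBetaBar Kb P q) (S24.jF P)
  rw [beta_jF, ← h1, S24.finrank_jF] at h2
  have h3 : dedekindPsi q * degI hd = dedekindPsi (P * q) := degI_mul hd
  have h4 : dedekindPsi (P * q) = q * dedekindPsi P := by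
    rw [mul_comm P q, Fermat.Agent.ES.dedekindPsi_prime_mul_of_dvd hq (NeZero.ne P) hqP]
  have h5 : dedekindPsi P ≠ 0 := by
    rw [← S24.finrank_jF P]
    have := S24.finiteDimensional_jF P
    exact Module.finrank_pos.ne'
  have h6 : Module.finrank Kb⟮jnF q⟯ (FN q) * degI hd ≤ dedekindPsi q * degI hd :=
    Nat.mul_le_mul_right _ (finrank_jnF_le q hq)
  have h7 : dedekindPsi P * (letI := algB P q; Module.finrank (FN P) (FN (P * q))) ≤
      dedekindPsi P * q := by
    calc _ = Module.finrank Kb⟮jnF q⟯ (FN q) * degI hd := h2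
      _ ≤ dedekindPsi q * degI hd := h6
      _ = dedekindPsi P * q := by rw [h3, h4, mul_comm]
  exact Nat.le_of_mul_le_mul_left h7 (Nat.pos_of_ne_zero h5)

theorem finrank_algB_of_dvd (hq : q.Prime) (hqP : q ∣ P) :
    letI := algB P q; Module.finrank (FN P) (FN (P * q)) = q := by
  refine le_antisymm (finrank_algB_le P q hq hqP) ?_
  obtain ⟨ζ0, hζ0⟩ := HasEnoughRootsOfUnity.exists_primitiveRoot Kb q
  obtain ⟨ζ, rfl⟩ := hζ0.isUnit (NeZero.ne q)
  have hζ : IsPrimitiveRoot ζ q := IsPrimitiveRoot.coe_units_iff.mp hζ0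
  let _ := algB P q
  have := finiteDimensional_algB P q
  have h := S24.degree_le_finrank_aux (K' := FN P) (F := FN (P * q)) (twistEmb P q ζ)
    (twistEmb_injective P q ζ hζ) (fun b b' x =>
      (twistEmb_beta P q ζ hζ.pow_eq_one b x).trans (twistEmb_beta P q ζ hζ.pow_eq_one b' x).symm)
  rwa [Nat.card_eq_fintype_card, Fintype.card_fin] at h

end Fermat.Agent.S36.AuxL
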