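import Fermat.Agent.S36.AuxL.Defs

set_option autoImplicit false

/-!
# S36 AUX task AX-Fricke : `j` is integral of degree `≤ ψ(n)` over `ℚ̄(j_n)` (symmetry of the modular equation)

`H = S24.degreeH n u 1`, `u = ⟨Jser n, _⟩ : A0 n`, is `∏_g (X - j_n ∘ g⁻¹)`: of degree
`[SL₂(ℤ) : Γ₀(n)]`, one factor is `X - PhiB u`, so `H.eval (PhiB u) = 0`, and by
`S24.degreeH_coeff` its coefficients are `p_i (jFun)`, `p_i : Polynomial Kb`.  So for all `z : ℍ`
`∑ i, (p_i.map iotaK).eval (jFun z) * (jd n z) ^ i = 0`.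
Fricke: `w z = -1/(n z)`, `jFun (w z) = jd n z` and `jd n (w z) = jFun z`.
Substituting `w z`:  `∑ i, (p_i.map iotaK).eval (jd n z) * (jFun z) ^ i = 0`.
-/

noncomputable section

open UpperHalfPlane ModularForm CongruenceSubgroup
open scoped MatrixGroups

namespace Fermat.Agent.S36.AuxL

open AlgebraicCurve ModularCurve IntermediateField
open Fermat.Agent.S24 (Kb FN iotaK)
open Fermat.Agent.GES

/-- `j(n z)` as an element of `F_n`. -/
def jnF (n : ℕ) [NeZero n] : FN n := S24.thetaIncl n ⟨S24.Jser n, S24.Jser_mem_A0 dvd_rfl⟩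

theorem coe_jnF (n : ℕ) [NeZero n] : ((jnF n : FN n) : LaurentSeries Kb) = S24.Jser n := rfl

/-- the Fricke involution exchanges `j` and `j_n`. -/
theorem exists_fricke (n : ℕ) [NeZero n] (z : ℍ) :
    ∃ w : ℍ, S24.jFun w = S24.jd n z ∧ S24.jd n w = S24.jFun z := by
  have hn : (0 : ℝ) < n := by exact_mod_cast Nat.pos_of_ne_zero (NeZero.ne n)
  have hn' : (n : ℂ) ≠ 0 := by exact_mod_cast NeZero.ne n
  have him : 0 < ((n : ℂ) * z).im := by
    have : ((n : ℂ) * z).im = n * z.im := by simp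
    rw [this]
    exact mul_pos hn z.im_pos
  refine ⟨ModularGroup.S • (⟨(n : ℂ) * z, him⟩ : ℍ), ?_, ?_⟩
  · rw [S24.jFun_smul, S24.jd, S24.pre]
    congr 1
    rw [Nat.cast_zero, add_zero, Nat.cast_one, div_one, ofComplex_apply_of_im_pos him]
  · rw [S24.jd, S24.pre, ← S24.jFun_smul ModularGroup.S z]
    congr 1
    rw [UpperHalfPlane.modular_S_smul, UpperHalfPlane.modular_S_smul]
    have h1 : ((n : ℂ) * ((UpperHalfPlane.mk (-((⟨(n : ℂ) * z, him⟩ : ℍ) : ℂ))⁻¹
        (⟨(n : ℂ) * z, him⟩ : ℍ).im_inv_neg_coe_pos : ℍ) : ℂ) + ((0 : ℕ) : ℂ)) / ((1 : ℕ) : ℂ)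
        = ((UpperHalfPlane.mk (-(z : ℂ))⁻¹ z.im_inv_neg_coe_pos : ℍ) : ℂ) := by
      have hz : (z : ℂ) ≠ 0 := ne_zero z
      show ((n : ℂ) * (-((n : ℂ) * z))⁻¹ + ((0 : ℕ) : ℂ)) / ((1 : ℕ) : ℂ) = (-(z : ℂ))⁻¹
      rw [Nat.cast_zero, add_zero, Nat.cast_one, div_one]
      field_simp
    rw [h1, ofComplex_apply]

theorem jnF_not_mem_range (n : ℕ) [NeZero n] :
    jnF n ∉ Set.range (algebraMap Kb (FN n)) := by
  rintro ⟨a, ha⟩
  have h1 : (algebraMap Kb (LaurentSeries Kb) a) = S24.Jser n := congrArg Subtype.val ha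
  rw [ModularCurve.algebraMap_laurentSeries_eq_single, S24.Jser, dif_neg (NeZero.ne n),
    ModularCurve.jqNModC] at h1
  have h2 := congrArg (fun s => HahnSeries.coeff s ((n : ℤ) * (-1 : ℤ))) h1
  simp only [ModularCurve.qExpand_coeff_mul, ModularCurve.coeff_jqModC_neg_one] at h2
  rw [HahnSeries.coeff_single_of_ne (by
    have : (n : ℤ) ≠ 0 := by exact_mod_cast NeZero.ne n
    simpa using this)] at h2
  exact zero_ne_one h2

theorem transcendental_jnF (n : ℕ) [NeZero n] : Transcendental Kb (jnF n) :=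
  S24.transcendental_of_not_mem_range (jnF_not_mem_range n)

/-- evaluation of `PhiB` on a polynomial in an element. -/
theorem coe_PhiB_aeval (n : ℕ) [NeZero n] (a : S24.A0 n) (p : Polynomial Kb) (z : ℍ) :
    ((S24.PhiB n (Polynomial.aeval a p) : S24.Btil n) : ℍ → ℂ) z =
      (p.map iotaK).eval (((S24.PhiB n a : S24.Btil n) : ℍ → ℂ) z) := by
  have h := Polynomial.hom_eval₂ p (algebraMap Kb (S24.A0 n))
    (((Pi.evalRingHom (fun _ : ℍ => ℂ) z).comp (S24.Btil n).subtype).comp (S24.PhiB n)) a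
  have h2 : (((Pi.evalRingHom (fun _ : ℍ => ℂ) z).comp (S24.Btil n).subtype).comp
      (S24.PhiB n)).comp (algebraMap Kb (S24.A0 n)) = iotaK := by
    ext b
    show ((S24.PhiB n (algebraMap Kb (S24.A0 n) b) : S24.Btil n) : ℍ → ℂ) z = iotaK b
    rw [S24.PhiB_const]
    rfl
  rw [h2] at h
  rw [Polynomial.eval_map, Polynomial.aeval_def]
  exact h

theorem fricke_poly (n : ℕ) [NeZero n] :
    ∃ R : Polynomial Kb⟮jnF n⟯, R ≠ 0 ∧ R.natDegree ≤ dedekindPsi n ∧
      Polynomial.aeval (S24.jF n) R = 0 := by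
  classical
  have : Fintype (SL(2, ℤ) ⧸ Gamma0 n) := Fintype.ofFinite _
  set u : S24.A0 n := ⟨S24.Jser n, S24.Jser_mem_A0 dvd_rfl⟩ with hu
  set j1 : S24.A0 n := ⟨S24.Jser 1, S24.Jser_mem_A0 (one_dvd n)⟩ with hj1
  set d := Fintype.card (SL(2, ℤ) ⧸ Gamma0 n) with hd
  have hdidx : d = dedekindPsi n := by
    rw [hd, ← Nat.card_eq_fintype_card, ← Subgroup.index_eq_card, ES.index_Gamma0]
  set H := S24.degreeH n u 1 with hH
  have hHdeg : H.natDegree ≤ d := S24.degreeH_natDegree_le n u 1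
  choose Pc hPc using S24.degreeH_coeff n u 1
  -- `H` is monic
  have hHmonic : H.Monic := by
    rw [hH, S24.degreeH]
    refine Polynomial.monic_prod_of_monic _ _ fun q _ => ?_
    rw [map_one, map_one, map_one, one_mul]
    exact Polynomial.monic_X_sub_C _
  -- `H (PhiB u) = 0`
  have hHroot : H.eval (S24.PhiB n u) = 0 := by
    rw [hH, S24.degreeH, Polynomial.eval_prod]
    apply Finset.prod_eq_zero (Finset.mem_univ ((1 : SL(2, ℤ)) : SL(2, ℤ) ⧸ Gamma0 n))
    have hout := S24.degree_out_one_mem n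
    rw [S24.act_PhiB n _ hout, S24.act_PhiB n _ hout, map_one, map_one, one_mul]
    simp
  -- pointwise form
  have hpt : ∀ z : ℍ, ∑ i ∈ Finset.range (d + 1),
      ((Pc i).map iotaK).eval (S24.jFun z) * (S24.jd n z) ^ i = 0 := by
    intro z
    have h1 := congrArg (fun b : S24.Btil n => (b : ℍ → ℂ) z) hHroot
    rw [Polynomial.eval_eq_sum_range' (Nat.lt_succ_of_le hHdeg)] at h1
    have h2 : ∀ i, ((H.coeff i : S24.Btil n) : ℍ → ℂ) z =
        ((Pc i).map iotaK).eval (S24.jFun z) := by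
      intro i
      rw [hPc i]
      have h := Polynomial.hom_eval₂ (Pc i) (S24.degreeConst n)
        ((Pi.evalRingHom (fun _ : ℍ => ℂ) z).comp (S24.Btil n).subtype)
        ⟨S24.jFun, S24.jFun_mem_Btil n⟩
      have h3 : ((Pi.evalRingHom (fun _ : ℍ => ℂ) z).comp (S24.Btil n).subtype).comp
          (S24.degreeConst n) = iotaK := by
        ext a; rfl
      rw [h3] at h
      rw [Polynomial.eval_map]
      exact h
    have h4 : ((∑ i ∈ Finset.range (d + 1), H.coeff i * S24.PhiB n u ^ i : S24.Btil n) :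
        ℍ → ℂ) z =
        ∑ i ∈ Finset.range (d + 1), ((H.coeff i : S24.Btil n) : ℍ → ℂ) z *
          (((S24.PhiB n u : S24.Btil n) : ℍ → ℂ) z) ^ i :=
      map_sum (((Pi.evalRingHom (fun _ : ℍ => ℂ) z).comp (S24.Btil n).subtype)) _ _ |>.trans (by
        refine Finset.sum_congr rfl fun i _ => ?_
        rw [map_mul, map_pow]
        rfl)
    have h5 : ((∑ i ∈ Finset.range (d + 1), H.coeff i * S24.PhiB n u ^ i : S24.Btil n) :
        ℍ → ℂ) z = 0 := h1
    rw [h4] at h5
    simp only [h2, hu, S24.PhiB_Jser n dvd_rfl] at h5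
    exact h5
  -- the swapped relation in `A0 n`
  have hrel : ∑ i ∈ Finset.range (d + 1), Polynomial.aeval u (Pc i) * j1 ^ i = 0 := by
    apply S24.PhiB_injective n
    rw [map_zero]
    apply Subtype.ext
    funext z
    obtain ⟨w, hw1, hw2⟩ := exists_fricke n z
    have h1 := hpt w
    rw [hw2] at h1
    simp only [hw1] at h1
    have h4 : ((S24.PhiB n (∑ i ∈ Finset.range (d + 1), Polynomial.aeval u (Pc i) * j1 ^ i) :
        S24.Btil n) : ℍ → ℂ) z =
        ∑ i ∈ Finset.range (d + 1),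
          ((S24.PhiB n (Polynomial.aeval u (Pc i)) : S24.Btil n) : ℍ → ℂ) z *
          (((S24.PhiB n j1 : S24.Btil n) : ℍ → ℂ) z) ^ i :=
      map_sum ((((Pi.evalRingHom (fun _ : ℍ => ℂ) z).comp (S24.Btil n).subtype)).comp
        (S24.PhiB n)) _ _ |>.trans (by
        refine Finset.sum_congr rfl fun i _ => ?_
        rw [map_mul, map_pow]
        rfl)
    rw [h4]
    simp only [coe_PhiB_aeval, hu, hj1, S24.PhiB_Jser n dvd_rfl, S24.PhiB_Jser n (one_dvd n),
      S24.jd_one]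
    exact h1
  set p : ℕ → Kb⟮jnF n⟯ := fun i => Polynomial.aeval (AdjoinSimple.gen Kb (jnF n)) (Pc i) with hp
  have hpmap : ∀ i, algebraMap Kb⟮jnF n⟯ (FN n) (p i) =
      S24.thetaIncl n (Polynomial.aeval u (Pc i)) := by
    intro i
    rw [hp]
    simp only
    rw [← Polynomial.aeval_algebraMap_apply, AdjoinSimple.algebraMap_gen]
    rw [Polynomial.aeval_def, Polynomial.aeval_def, Polynomial.hom_eval₂]
    rfl
  set R : Polynomial Kb⟮jnF n⟯ := ∑ i ∈ Finset.range (d + 1), Polynomial.monomial i (p i) with hR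
  have hRcoeff : ∀ i, R.coeff i = if i < d + 1 then p i else 0 := by
    intro i
    rw [hR, Polynomial.finsetSum_coeff]
    simp only [Polynomial.coeff_monomial]
    rw [Finset.sum_ite_eq' (Finset.range (d + 1)) i]
    simp only [Finset.mem_range]
  refine ⟨R, ?_, ?_, ?_⟩
  · intro h0
    -- the leading coefficient of `H` is `1`, so `Pc (natDegree H) ≠ 0`
    have h1 : R.coeff H.natDegree = 0 := by rw [h0, Polynomial.coeff_zero]
    rw [hRcoeff, if_pos (Nat.lt_succ_of_le hHdeg)] at h1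
    have h2 : Pc H.natDegree = 0 := by
      have h3 := congrArg (algebraMap Kb⟮jnF n⟯ (FN n)) h1
      rw [hp] at h3
      simp only at h3
      rw [← Polynomial.aeval_algebraMap_apply, AdjoinSimple.algebraMap_gen, map_zero] at h3
      by_contra hne
      exact transcendental_jnF n ⟨_, hne, h3⟩
    have h4 := hPc H.natDegree
    rw [h2, Polynomial.eval₂_zero] at h4
    have h5 : H.coeff H.natDegree = 1 := hHmonic
    rw [h5] at h4
    have h6 := congrArg (fun b : S24.Btil n => (b : ℍ → ℂ) UpperHalfPlane.I) h4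
    exact one_ne_zero h6
  · rw [← hdidx, hR]
    refine Polynomial.natDegree_sum_le_of_forall_le _ _ fun i hi => ?_
    exact (Polynomial.natDegree_monomial_le _).trans (by
      have := Finset.mem_range.mp hi; omega)
  · rw [hR, map_sum]
    have h1 := congrArg (S24.thetaIncl n) hrel
    rw [map_sum, map_zero] at h1
    rw [← h1]
    refine Finset.sum_congr rfl fun i _ => ?_
    rw [Polynomial.aeval_monomial, hpmap, map_mul, map_pow]
    rfl

end Fermat.Agent.S36.AuxL
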