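import Fermat.Agent.S36.AuxL.Fricke

set_option autoImplicit false

/-!
# S36 AUX task AX-Gen : `[F_q : ℚ̄(j_q)] ≤ ψ(q)`, `q` prime

SKETCH.  `F_q = ℚ̄(j, j_q)`: every `f : FN q` is `thetaIncl u / thetaIncl w` (`S24.thetaIncl_exists_div`), `u w ∈ A0 q = Algebra.adjoin Kb (fGens q)`,
`fGens q = {Jser d | d ∣ q} = {Jser 1, Jser q}` (`Nat.dvd_prime`); `Algebra.adjoin_induction` shows `thetaIncl a ∈ Kb⟮jnF q⟯⟮jF q⟯`
(as a subset of `FN q`).  So `Kb⟮jnF q⟯⟮jF q⟯ = ⊤`, `IntermediateField.adjoin.finrank`, `IntermediateField.finrank_top'`, `minpoly.dvd`,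
`Polynomial.natDegree_le_of_dvd`, `fricke_poly` (which also gives integrality: `isAlgebraic_iff_isIntegral`).
-/

noncomputable section

namespace Fermat.Agent.S36.AuxL

open AlgebraicCurve ModularCurve IntermediateField
open Fermat.Agent.S24 (Kb FN iotaK)
open Fermat.Agent.GES

theorem adjoin_jnF_jF_eq_top (q : ℕ) [NeZero q] (hq : q.Prime) :
    (Kb⟮jnF q⟯)⟮S24.jF q⟯ = ⊤ := by
  rw [eq_top_iff]
  intro f _
  have key : ∀ a : S24.A0 q, S24.thetaIncl q a ∈ (Kb⟮jnF q⟯)⟮S24.jF q⟯ := by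
    rintro ⟨a, ha⟩
    have ha' : a ∈ Algebra.adjoin Kb (S24.fGens q) := ha
    induction ha' using Algebra.adjoin_induction with
    | mem x hx =>
      obtain ⟨d, hd, rfl⟩ := hx
      rcases (Nat.dvd_prime hq).mp hd with rfl | rfl
      · exact IntermediateField.mem_adjoin_simple_self _ _
      · exact IntermediateField.algebraMap_mem _ (AdjoinSimple.gen Kb (jnF d))
    | algebraMap r =>
      exact IntermediateField.algebraMap_mem _ (algebraMap Kb Kb⟮jnF q⟯ r)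
    | add x y hx hy ihx ihy =>
      have hx' : x ∈ S24.A0 q := hx
      have hy' : y ∈ S24.A0 q := hy
      have h1 : (⟨x + y, ha⟩ : S24.A0 q) = ⟨x, hx'⟩ + ⟨y, hy'⟩ := rfl
      rw [h1, map_add]
      exact add_mem (ihx hx') (ihy hy')
    | mul x y hx hy ihx ihy =>
      have hx' : x ∈ S24.A0 q := hx
      have hy' : y ∈ S24.A0 q := hy
      have h1 : (⟨x * y, ha⟩ : S24.A0 q) = ⟨x, hx'⟩ * ⟨y, hy'⟩ := rfl
      rw [h1, map_mul]
      exact mul_mem (ihx hx') (ihy hy')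
  obtain ⟨u, w, -, rfl⟩ := S24.thetaIncl_exists_div q f
  exact div_mem (key u) (key w)

theorem finrank_jnF_le (q : ℕ) [NeZero q] (hq : q.Prime) :
    Module.finrank Kb⟮jnF q⟯ (FN q) ≤ dedekindPsi q := by
  obtain ⟨R, hR0, hRdeg, hR⟩ := fricke_poly q
  have hint : IsIntegral Kb⟮jnF q⟯ (S24.jF q) := isAlgebraic_iff_isIntegral.mp ⟨R, hR0, hR⟩
  rw [← IntermediateField.finrank_top', ← adjoin_jnF_jF_eq_top q hq,
    IntermediateField.adjoin.finrank hint]
  exact (Polynomial.natDegree_le_of_dvd (minpoly.dvd _ _ hR) hR0).trans hRdeg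

end Fermat.Agent.S36.AuxL
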