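import Fermat.Agent.S36.AuxL.DegBeta

set_option autoImplicit false

/-!
# S36 AUX task AX-NormBeta : product formula for the norm along `β`, and change of level

SKETCH.  `normB_prod`: `GES.norm_eq_prod_of_embeddings` (for the algebra `algB P q`) with `Q = Fin q`, `τ = twistEmb P q ζ`, `twistEmb_injective`, `twistEmb_beta`,
`finrank_algB_of_dvd`, `finiteDimensional_algB`, `q0 = ⟨0, _⟩`.
`normB_inclF`: both `qExpand Kb q (normB P₂ q (inclF _ x))` and `qExpand Kb q (inclF h (normB P₁ q x))` are `∏ b, twist (ζ^b) x` (`coe_inclF`);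
`qExpand` is injective (ring hom from a field), `Subtype.ext`.  A primitive `q`-th root of unity in `Kb`: `IsAlgClosed` + char 0
(`HasEnoughRootsOfUnity.exists_primitiveRoot Kb q`, then `IsPrimitiveRoot.isUnit`/`IsPrimitiveRoot.toRootsOfUnity` or `Units.mk0`, `IsPrimitiveRoot.coe_units_iff`).
-/

noncomputable section

namespace Fermat.Agent.S36.AuxL

open AlgebraicCurve ModularCurve IntermediateField
open Fermat.Agent.S24 (Kb FN iotaK)
open Fermat.Agent.GES

variable (q : ℕ) [NeZero q]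

/-- `(N_β y)(Q^q) = ∏_b y(ζ^b Q)`. -/
theorem normB_prod (P : ℕ) [NeZero P] (hq : q.Prime) (hqP : q ∣ P) (ζ : Kbˣ)
    (hζ : IsPrimitiveRoot ζ q) (y : FN (P * q)) :
    qExpand Kb q ((normB P q y : FN P) : LaurentSeries Kb) =
      ∏ b : Fin q, S28.twist (ζ ^ (b : ℕ)) (y : LaurentSeries Kb) := by
  let _ := algB P q
  have := finiteDimensional_algB P q
  have h := norm_eq_prod_of_embeddings (F := FN P) (E := FN (P * q)) (twistEmb P q ζ)
    (twistEmb_injective P q ζ hζ) (fun b b' x =>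
      (twistEmb_beta P q ζ hζ.pow_eq_one b x).trans (twistEmb_beta P q ζ hζ.pow_eq_one b' x).symm)
    (by rw [Fintype.card_fin]; exact (finrank_algB_of_dvd P q hq hqP).symm) y
    ⟨0, Nat.pos_of_ne_zero (NeZero.ne q)⟩
  rw [← twistEmb_beta P q ζ hζ.pow_eq_one ⟨0, Nat.pos_of_ne_zero (NeZero.ne q)⟩]
  exact h

theorem normB_inclF {P₁ P₂ : ℕ} [NeZero P₁] [NeZero P₂] (h : P₁ ∣ P₂) (hq : q.Prime)
    (hq1 : q ∣ P₁) (x : FN (P₁ * q)) :
    normB P₂ q (inclF (Nat.mul_dvd_mul_right h q) x) = inclF h (normB P₁ q x) := by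
  obtain ⟨ζ0, hζ0⟩ := HasEnoughRootsOfUnity.exists_primitiveRoot Kb q
  obtain ⟨ζ, rfl⟩ := hζ0.isUnit (NeZero.ne q)
  have hζ : IsPrimitiveRoot ζ q := IsPrimitiveRoot.coe_units_iff.mp hζ0
  apply Subtype.ext
  apply qExpand_injective (R := Kb) (N := q)
  rw [normB_prod q P₂ hq (hq1.trans h) ζ hζ, coe_inclF h, normB_prod q P₁ hq hq1 ζ hζ]
  simp only [coe_inclF]

end Fermat.Agent.S36.AuxL
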