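import Fermat.Agent.S36.AuxL.NormAlpha
import Fermat.Agent.S36.AuxL.NormBeta

set_option autoImplicit false

/-!
# S36 AUX task AX-Main : the core theorem at level `P₂ q` implies the core theorem at level `P₁ q`, `P₁ ∣ P₂`

SKETCH.  `f : DN (P₁ q) m`; `f' = ⟨inclU _ f, inclU_mem _ m f f.2⟩ : DN (P₂ q) m`.
* class fixed by inertia: `rhoV_mk`, `Vm.mk_eq_mk_iff`: `galU τ f / f = w ^ m` in `F_{P₁ q}`; apply `inclU` and `inclF_galF`.
* `normA P₂ q f' = inclF h (normA P₁ q f) = (inclF h a) ^ m` (`normA_inclF`), the same for `normB`.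
* `H` gives `w ^ m = f' ^ c`; apply `normI`: `(normI w) ^ m = normI (inclF f) ^ c = f ^ (degI * c)` (`normI_inclF`).
-/

noncomputable section

namespace Fermat.Agent.S36.AuxL

open AlgebraicCurve ModularCurve IntermediateField
open Fermat.Agent.S24 (Kb FN iotaK)
open Fermat.Agent.GES

theorem coreAt_of_dvd (q : ℕ) [NeZero q] {P₁ P₂ : ℕ} [NeZero P₁] [NeZero P₂] (h : P₁ ∣ P₂)
    (hq : q.Prime) (hq1 : q ∣ P₁) (hcop : Nat.Coprime q (P₂ / P₁)) {c : ℕ}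
    (H : CoreAt P₂ q c) : CoreAt P₁ q (c * degI (Nat.mul_dvd_mul_right h q)) := by
  intro A hA m _ hqm f hfix ⟨a, ha⟩ ⟨b, hb⟩
  have hd : P₁ * q ∣ P₂ * q := Nat.mul_dvd_mul_right h q
  let f' : DN (P₂ * q) m := ⟨inclU hd f, inclU_mem hd m f f.2⟩
  have hf' : ((f' : (FN (P₂ * q))ˣ) : FN (P₂ * q)) = inclF hd ((f : (FN (P₁ * q))ˣ) : FN (P₁ * q)) :=
    rfl
  obtain ⟨w, hw⟩ := H A hA m hqm f'
    (by
      intro τ hτ
      have h1 := hfix τ hτ
      rw [rhoV_mk, Vm.mk_eq_mk_iff] at h1 ⊢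
      obtain ⟨u, hu⟩ := h1
      refine ⟨inclU hd u, ?_⟩
      rw [← map_pow, hu, map_div]
      have h2 : inclU hd (galU (P₁ * q) τ (f : (FN (P₁ * q))ˣ)) =
          galU (P₂ * q) τ (inclU hd (f : (FN (P₁ * q))ˣ)) := by
        apply Units.ext
        show inclF hd (galF (P₁ * q) τ ((f : (FN (P₁ * q))ˣ) : FN (P₁ * q))) =
          galF (P₂ * q) τ (inclF hd ((f : (FN (P₁ * q))ˣ) : FN (P₁ * q)))
        exact inclF_galF hd τ _
      exact congrArg (· / inclU hd (f : (FN (P₁ * q))ˣ)) h2)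
    ⟨inclF h a, by rw [hf', normA_inclF q h hq hq1 hcop, ← ha, map_pow]⟩
    ⟨inclF h b, by rw [hf', normB_inclF q h hq hq1, ← hb, map_pow]⟩
  refine ⟨normI hd w, ?_⟩
  rw [← map_pow, hw, hf', map_pow, normI_inclF, ← pow_mul, mul_comm (degI hd) c]

end Fermat.Agent.S36.AuxL
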