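import Fermat.Agent.S36.AuxL.DegAlpha
import Fermat.Agent.S36.AuxL.Incl

set_option autoImplicit false

/-!
# S36 AUX task AX-NormAlpha : product formula for the norm along `α`, and change of level

`q ∣ P`.  The `q` embeddings of `F_{Pq}` over `F_P` are `theta (P q) ∞ (deltaK P k)`, `k mod q`.

SKETCHES.
* `thetaK_inclF_injective` (the key): let `P₁ ∣ P₂`, `q` coprime to `P₂ / P₁`.  If `theta (P₂ q) c (deltaK P₂ k)` and
  `theta (P₂ q) c (deltaK P₂ k')` agree on the image of `F_{P₁ q}`, evaluate at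
  `inclF _ (thetaIncl (P₁ q) ⟨Jser (P₁ q), _⟩) = thetaIncl (P₂ q) ⟨Jser (P₁ q), _⟩` (`Subtype.ext`, `coe_inclF`, `GES.emb_coe_thetaIncl`);
  `theta_incl`, `theta_onB_injective`, `coe_actB`, `PhiB_Jser`: `act (deltaK P₂ k) (jd (P₁ q)) = act (deltaK P₂ k') (jd (P₁ q))`;
  as in `S24.inv_mul_mem_Gamma0_of_theta_eq`, `S24.mem_Gamma0_of_act_jd_eq (P₁ q)` gives
  `(deltaK P₂ k)⁻¹ * deltaK P₂ k' ∈ Gamma0 (P₁ q)`; `deltaK_inv_mul`, `deltaK_mem_iff`: `P₁ q ∣ P₂ (k' - k)`, so `q ∣ k' - k`.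
* `normA_prod`: `GES.norm_eq_prod_of_embeddings` with `Q = Fin q`, `τ k = theta (P q) c (deltaK P k)`; injective by the key (with `P₁ = P₂ = P`);
  agreement on `F_P`: `GES.theta_alpha P q _ (deltaK_mem P k)`; `finrank_algA_of_dvd`; `q0 = 0`, `deltaK_zero`, `GES.theta_one`.
* `normA_inclF`: apply `GES.norm_eq_prod_of_embeddings` to `F_{P₁ q} / F_{P₁}` with `τ' k = (theta (P₂ q) c (deltaK P₂ k)).comp (inclF _)`
  (agreement on `F_{P₁}`: `inclF _ (α₁ r) = α₂ (inclF h r)` by `inclF_comp`/`Subtype.ext`, then `theta_alpha`), compare with `normA_prod` at level `P₂`,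
  and cancel the injective ring hom `theta (P₂ q) c 1 ∘ α₂`.
-/

noncomputable section

open UpperHalfPlane ModularForm CongruenceSubgroup
open scoped MatrixGroups

namespace Fermat.Agent.S36.AuxL

open AlgebraicCurve ModularCurve
open Fermat.Agent.S24 (Kb FN iotaK theta cuspChart)
open Fermat.Agent.GES

variable (q : ℕ) [NeZero q]

theorem thetaK_inclF_injective {P₁ P₂ : ℕ} [NeZero P₁] [NeZero P₂] (h : P₁ ∣ P₂)
    (hcop : Nat.Coprime q (P₂ / P₁)) (k k' : Fin q)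
    (he : ∀ x : FN (P₁ * q),
      theta (P₂ * q) (cuspChart (P₂ * q)) (deltaK P₂ (k : ℕ)) (inclF (Nat.mul_dvd_mul_right h q) x) =
      theta (P₂ * q) (cuspChart (P₂ * q)) (deltaK P₂ (k' : ℕ)) (inclF (Nat.mul_dvd_mul_right h q) x)) :
    k = k' := by
  have hd2 : P₁ * q ∣ P₂ * q := Nat.mul_dvd_mul_right h q
  have hx : inclF hd2 (S24.thetaIncl (P₁ * q) ⟨S24.Jser (P₁ * q), S24.Jser_mem_A0 dvd_rfl⟩) =
      S24.thetaIncl (P₂ * q) ⟨S24.Jser (P₁ * q), S24.Jser_mem_A0 hd2⟩ := by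
    apply Subtype.ext
    rw [coe_inclF, emb_coe_thetaIncl, emb_coe_thetaIncl]
  have h1 := he (S24.thetaIncl (P₁ * q) ⟨S24.Jser (P₁ * q), S24.Jser_mem_A0 dvd_rfl⟩)
  rw [hx, S24.theta_incl, S24.theta_incl] at h1
  have h2 := congrArg Subtype.val (S24.theta_onB_injective _ h1)
  rw [S24.coe_actB, S24.coe_actB, S24.PhiB_Jser (P₂ * q) hd2] at h2
  have h3 : (deltaK P₂ (k : ℕ))⁻¹ * deltaK P₂ (k' : ℕ) ∈ Gamma0 (P₁ * q) := by
    apply S24.mem_Gamma0_of_act_jd_eq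
    rw [S24.act_mul, ← h2, ← S24.act_mul, inv_mul_cancel, S24.act_one]
  rw [deltaK_inv_mul, deltaK_mem_iff] at h3
  obtain ⟨t, rfl⟩ := h
  have hP : 0 < P₁ := Nat.pos_of_ne_zero (NeZero.ne P₁)
  rw [Nat.mul_div_cancel_left t hP] at hcop
  have h4 : (q : ℤ) ∣ (t : ℤ) * (((k' : ℕ) : ℤ) - ((k : ℕ) : ℤ)) := by
    have h5 : ((P₁ * q : ℕ) : ℤ) = (P₁ : ℤ) * q := by push_cast; ring
    have h6 : ((P₁ * t : ℕ) : ℤ) * (((k' : ℕ) : ℤ) - ((k : ℕ) : ℤ)) =
        (P₁ : ℤ) * ((t : ℤ) * (((k' : ℕ) : ℤ) - ((k : ℕ) : ℤ))) := by push_cast; ring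
    rw [h5, h6] at h3
    exact (mul_dvd_mul_iff_left (by exact_mod_cast hP.ne')).mp h3
  have h7 : (q : ℤ) ∣ ((k' : ℕ) : ℤ) - ((k : ℕ) : ℤ) :=
    (Int.isCoprime_iff_gcd_eq_one.mpr (by simpa [Int.gcd_natCast_natCast] using hcop)).dvd_of_dvd_mul_left h4
  have hk := k.2
  have hk' := k'.2
  obtain ⟨s, hs⟩ := h7
  have hs0 : s = 0 := by
    by_contra hne
    rcases lt_or_gt_of_ne hne with hlt | hgt
    · have : (q : ℤ) * s ≤ -(q : ℤ) := by nlinarith
      omega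
    · have : (q : ℤ) ≤ (q : ℤ) * s := by nlinarith
      omega
  rw [hs0, mul_zero] at hs
  apply Fin.ext
  omega

/-- the norm along `α` is the product over the cusps `1/(P k)`. -/
theorem normA_prod (P : ℕ) [NeZero P] (hq : q.Prime) (hqP : q ∣ P) (y : FN (P * q)) :
    stdEmb (P * q) (heckeAlphaBar Kb P q (normA P q y)) =
      ∏ k : Fin q, theta (P * q) (cuspChart (P * q)) (deltaK P (k : ℕ)) y := by
  let _ := algA P q
  have := finiteDimensional_algA P q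
  have hcop : Nat.Coprime q (P / P) := by
    rw [Nat.div_self (Nat.pos_of_ne_zero (NeZero.ne P))]
    exact Nat.coprime_one_right q
  have hincl : ∀ x : FN (P * q), inclF (Nat.mul_dvd_mul_right (dvd_refl P) q) x = x := by
    intro x
    apply Subtype.ext
    rw [coe_inclF]
  have key := norm_eq_prod_of_embeddings (F := FN P) (E := FN (P * q))
    (fun k : Fin q => theta (P * q) (cuspChart (P * q)) (deltaK P (k : ℕ)))
    (by
      intro k k' hkk
      apply thetaK_inclF_injective q (dvd_refl P) hcop k k'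
      intro x
      rw [hincl]
      exact DFunLike.congr_fun hkk x)
    (by
      intro k k' r
      show theta (P * q) (cuspChart (P * q)) (deltaK P (k : ℕ)) (heckeAlphaBar Kb P q r) =
        theta (P * q) (cuspChart (P * q)) (deltaK P (k' : ℕ)) (heckeAlphaBar Kb P q r)
      rw [theta_alpha P q _ (deltaK_mem P _), theta_alpha P q _ (deltaK_mem P _)])
    (by rw [Fintype.card_fin]; exact (finrank_algA_of_dvd P q hq hqP).symm)
    y ⟨0, hq.pos⟩
  rw [← key]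
  show _ = theta (P * q) (cuspChart (P * q)) (deltaK P ((0 : ℕ) : ℤ))
    (heckeAlphaBar Kb P q (normA P q y))
  rw [theta_alpha P q _ (deltaK_mem P _)]

theorem normA_inclF {P₁ P₂ : ℕ} [NeZero P₁] [NeZero P₂] (h : P₁ ∣ P₂) (hq : q.Prime)
    (hq1 : q ∣ P₁) (hcop : Nat.Coprime q (P₂ / P₁)) (x : FN (P₁ * q)) :
    normA P₂ q (inclF (Nat.mul_dvd_mul_right h q) x) = inclF h (normA P₁ q x) := by
  have hcomm : ∀ r : FN P₁, inclF (Nat.mul_dvd_mul_right h q) (heckeAlphaBar Kb P₁ q r) =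
      heckeAlphaBar Kb P₂ q (inclF h r) := by
    intro r
    apply Subtype.ext
    rw [coe_inclF, coe_heckeAlphaBar, coe_heckeAlphaBar, coe_inclF]
  have h2 := normA_prod q P₂ hq (hq1.trans h) (inclF (Nat.mul_dvd_mul_right h q) x)
  let _ := algA P₁ q
  have := finiteDimensional_algA P₁ q
  have key := norm_eq_prod_of_embeddings (F := FN P₁) (E := FN (P₁ * q))
    (fun k : Fin q => (theta (P₂ * q) (cuspChart (P₂ * q)) (deltaK P₂ (k : ℕ))).comp
      (inclF (Nat.mul_dvd_mul_right h q) : FN (P₁ * q) →+* FN (P₂ * q)))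
    (by
      intro k k' hkk
      apply thetaK_inclF_injective q h hcop k k'
      intro x
      exact DFunLike.congr_fun hkk x)
    (by
      intro k k' r
      show theta (P₂ * q) (cuspChart (P₂ * q)) (deltaK P₂ (k : ℕ))
          (inclF (Nat.mul_dvd_mul_right h q) (heckeAlphaBar Kb P₁ q r)) =
        theta (P₂ * q) (cuspChart (P₂ * q)) (deltaK P₂ (k' : ℕ))
          (inclF (Nat.mul_dvd_mul_right h q) (heckeAlphaBar Kb P₁ q r))
      rw [hcomm, theta_alpha P₂ q _ (deltaK_mem P₂ _), theta_alpha P₂ q _ (deltaK_mem P₂ _)])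
    (by rw [Fintype.card_fin]; exact (finrank_algA_of_dvd P₁ q hq hq1).symm)
    x ⟨0, hq.pos⟩
  have key' : theta (P₂ * q) (cuspChart (P₂ * q)) (deltaK P₂ ((0 : ℕ) : ℤ))
      (inclF (Nat.mul_dvd_mul_right h q) (heckeAlphaBar Kb P₁ q (normA P₁ q x))) =
      ∏ k : Fin q, theta (P₂ * q) (cuspChart (P₂ * q)) (deltaK P₂ (k : ℕ))
        (inclF (Nat.mul_dvd_mul_right h q) x) := key
  rw [hcomm, theta_alpha P₂ q _ (deltaK_mem P₂ _), ← h2] at key'
  exact ((heckeAlphaBar Kb P₂ q).injective ((stdEmb (P₂ * q)).injective key')).symm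

end Fermat.Agent.S36.AuxL
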